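/-
S33lib / Lat (helper8): **the core contradiction.**  `O₂` a local ring, `U : O₂² → O₂^r` linear with
`Gact σ *ᵥ U x = U (R σ *ᵥ x)`; `μ ∈ O₂²` with a unit entry and `μ (R σ - 1) ≡ 0 mod 𝔪` for `σ ∈ I`;
`d ∈ O₂`, `𝔞` an ideal such that `U (d z) ∈ 𝔞^r ⇒ z ∈ 𝔪²`; `PK` a subgroup of `(O₂/𝔞)^r` containing all
`U (d x) mod 𝔞` and having no non-zero subquotient with trivial `I`-action.  Contradiction:
`Γ' = {U (d x)}`, `Γ'' = {U (d x) : μ x ∈ 𝔪}`.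
-/
import Mathlib

set_option autoImplicit false
set_option linter.unusedSectionVars false

noncomputable section

namespace Fermat.Agent.S33lib.Lat

open Matrix IsLocalRing

variable {O₂ : Type*} [CommRing O₂]

/-- `μ ⬝ ((R - 1) x) = ∑_j (μ (R - 1))_j x_j`. -/
theorem sum_mul_sub_one_mulVec (μ : Fin 2 → O₂) (X : Matrix (Fin 2) (Fin 2) O₂)
    (x : Fin 2 → O₂) :
    ∑ k, μ k * ((X - 1) *ᵥ x) k = ∑ j, (∑ k, μ k * (X - 1) k j) * x j := by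
  simp only [Matrix.mulVec, dotProduct, Finset.mul_sum, Finset.sum_mul]
  rw [Finset.sum_comm]
  refine Finset.sum_congr rfl fun j _ => Finset.sum_congr rfl fun k _ => ?_
  ring

variable [IsLocalRing O₂] {r : ℕ} {G : Type*}

theorem sum_mul_sub_one_mulVec_mem (μ : Fin 2 → O₂) (X : Matrix (Fin 2) (Fin 2) O₂)
    (h : ∀ j, ∑ k, μ k * (X - 1) k j ∈ maximalIdeal O₂) (x : Fin 2 → O₂) :
    ∑ k, μ k * ((X - 1) *ᵥ x) k ∈ maximalIdeal O₂ := by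
  rw [sum_mul_sub_one_mulVec]
  exact Ideal.sum_mem _ fun j _ => Ideal.mul_mem_right _ _ (h j)

/-- **the core contradiction.** -/
theorem false_of_square (I : Set G)
    (U : (Fin 2 → O₂) →ₗ[O₂] (Fin r → O₂))
    (Gact : G → Matrix (Fin r) (Fin r) O₂) (R : G → Matrix (Fin 2) (Fin 2) O₂)
    (hU : ∀ (σ : G) (x : Fin 2 → O₂), Gact σ *ᵥ U x = U (R σ *ᵥ x))
    (μ : Fin 2 → O₂) (hμu : ∃ k, IsUnit (μ k))
    (hμ : ∀ σ ∈ I, ∀ j : Fin 2, ∑ k, μ k * (R σ - 1) k j ∈ maximalIdeal O₂)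
    (d : O₂) (𝔞 : Ideal O₂)
    (hsat : ∀ z : Fin 2 → O₂, (∀ i, U (d • z) i ∈ 𝔞) → ∀ k, z k ∈ maximalIdeal O₂)
    (PK : AddSubgroup (Fin r → O₂ ⧸ 𝔞))
    (hPK : ∀ x : Fin 2 → O₂, (fun i => Ideal.Quotient.mk 𝔞 (U (d • x) i)) ∈ PK)
    (hno : ∀ Γ'' Γ' : AddSubgroup (Fin r → O₂ ⧸ 𝔞), Γ'' ≤ Γ' → Γ' ≤ PK →
      (∀ σ ∈ I, ∀ m ∈ Γ'', (Gact σ).map (Ideal.Quotient.mk 𝔞) *ᵥ m ∈ Γ'') →
      (∀ σ ∈ I, ∀ m ∈ Γ', (Gact σ).map (Ideal.Quotient.mk 𝔞) *ᵥ m ∈ Γ') →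
      (∀ σ ∈ I, ∀ m ∈ Γ', (Gact σ).map (Ideal.Quotient.mk 𝔞) *ᵥ m - m ∈ Γ'') → Γ' ≤ Γ'') :
    False := by
  classical
  -- the map `φ x = U (d x) mod 𝔞`
  let φ : (Fin 2 → O₂) →+ (Fin r → O₂ ⧸ 𝔞) :=
    { toFun := fun x i => Ideal.Quotient.mk 𝔞 (U (d • x) i)
      map_zero' := by
        funext i
        simp
      map_add' := by
        intro x y
        funext i
        simp only [smul_add, map_add, Pi.add_apply] }
  have hφ : ∀ x i, φ x i = Ideal.Quotient.mk 𝔞 (U (d • x) i) := fun _ _ => rfl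
  -- equivariance of `φ`
  have hφact : ∀ (σ : G) (x : Fin 2 → O₂),
      (Gact σ).map (Ideal.Quotient.mk 𝔞) *ᵥ φ x = φ (R σ *ᵥ x) := by
    intro σ x
    funext i
    have h1 := RingHom.map_mulVec (Ideal.Quotient.mk 𝔞) (Gact σ) (U (d • x)) i
    rw [hU, Matrix.mulVec_smul] at h1
    rw [hφ, h1]
    rfl
  -- the subgroup `S₀ = {x | μ x ∈ 𝔪}`
  let S₀ : AddSubgroup (Fin 2 → O₂) :=
    { carrier := {x | ∑ k, μ k * x k ∈ maximalIdeal O₂}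
      zero_mem' := by
        show ∑ k, μ k * (0 : Fin 2 → O₂) k ∈ maximalIdeal O₂
        simp
      add_mem' := by
        intro x y hx hy
        show ∑ k, μ k * (x + y) k ∈ maximalIdeal O₂
        simp only [Pi.add_apply, mul_add, Finset.sum_add_distrib]
        exact Ideal.add_mem _ hx hy
      neg_mem' := by
        intro x hx
        show ∑ k, μ k * (-x) k ∈ maximalIdeal O₂
        simp only [Pi.neg_apply, mul_neg, Finset.sum_neg_distrib]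
        exact Ideal.neg_mem_iff _ |>.mpr hx }
  have hS₀ : ∀ x, x ∈ S₀ ↔ ∑ k, μ k * x k ∈ maximalIdeal O₂ := fun _ => Iff.rfl
  have hsub : ∀ σ ∈ I, ∀ x : Fin 2 → O₂, (R σ - 1) *ᵥ x ∈ S₀ := by
    intro σ hσ x
    rw [hS₀]
    exact sum_mul_sub_one_mulVec_mem μ (R σ) (hμ σ hσ) x
  have hRx : ∀ (σ : G) (x : Fin 2 → O₂), R σ *ᵥ x = x + (R σ - 1) *ᵥ x := by
    intro σ x
    rw [Matrix.sub_mulVec, Matrix.one_mulVec]
    abel
  have hno' := hno (S₀.map φ) ((⊤ : AddSubgroup (Fin 2 → O₂)).map φ)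
    (AddSubgroup.map_mono le_top) ?_ ?_ ?_ ?_
  · -- contradiction
    obtain ⟨k₀, hk₀⟩ := hμu
    have h1 : φ (Pi.single k₀ 1) ∈ S₀.map φ := hno' ⟨_, AddSubgroup.mem_top _, rfl⟩
    obtain ⟨x', hx', hxx⟩ := h1
    have h2 : ∀ i, U (d • (Pi.single k₀ 1 - x')) i ∈ 𝔞 := by
      intro i
      have h3 := congrFun hxx i
      rw [hφ, hφ] at h3
      rw [smul_sub, map_sub, Pi.sub_apply, ← Ideal.Quotient.eq]
      exact h3.symm
    have h4 := hsat _ h2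
    have h5 : ∑ k, μ k * (Pi.single k₀ 1 : Fin 2 → O₂) k ∈ maximalIdeal O₂ := by
      have e : ∑ k, μ k * (Pi.single k₀ 1 : Fin 2 → O₂) k =
          ∑ k, μ k * x' k + ∑ k, μ k * ((Pi.single k₀ 1 : Fin 2 → O₂) - x') k := by
        rw [← Finset.sum_add_distrib]
        refine Finset.sum_congr rfl fun k _ => ?_
        rw [Pi.sub_apply]
        ring
      rw [e]
      exact Ideal.add_mem _ ((hS₀ x').mp hx')
        (Ideal.sum_mem _ fun k _ => Ideal.mul_mem_left _ _ (h4 k))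
    have h6 : ∑ k, μ k * (Pi.single k₀ 1 : Fin 2 → O₂) k = μ k₀ := by
      simp [Pi.single_apply]
    rw [h6] at h5
    exact (IsLocalRing.mem_maximalIdeal _).mp h5 hk₀
  · rintro _ ⟨x, -, rfl⟩
    exact hPK x
  · rintro σ hσ _ ⟨x, hx, rfl⟩
    refine ⟨R σ *ᵥ x, ?_, (hφact σ x).symm⟩
    rw [hRx]
    exact S₀.add_mem hx (hsub σ hσ x)
  · rintro σ hσ _ ⟨x, -, rfl⟩
    exact ⟨R σ *ᵥ x, AddSubgroup.mem_top _, (hφact σ x).symm⟩
  · rintro σ hσ _ ⟨x, -, rfl⟩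
    refine ⟨(R σ - 1) *ᵥ x, hsub σ hσ x, ?_⟩
    rw [hφact, hRx, map_add]
    abel

end Fermat.Agent.S33lib.Lat
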