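/-
S33lib / Lat (helper8): **the presentation of `(O/𝔞)^r` by a power of `J₀(N)[p^n]`**, as a definition.
(`S32lib/Lat/Torsion` has it inside a proof.)  `pmap x = ∑_c c • θ(κ_n (x c))`; additive, surjective
and `G_ℚ`-equivariant for the action `actQuot` (limit matrices mod `𝔞`).
-/
import Fermat.Agent.S32lib.Lat.Torsion

set_option autoImplicit false
set_option linter.unusedSectionVars false
set_option linter.style.haveILetI false

noncomputable section

namespace Fermat.Agent.S33lib.Lat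

open Matrix Fermat.Agent.S29lib Fermat.Agent.S29lib.E Fermat.Agent.S29lib.S30 Fermat.Agent.S32lib

variable {N p : ℕ} [NeZero N] (C : ComparisonData N p)
  {O : Type} [CommRing O] [IsLocalRing O] [IsAdicComplete (IsLocalRing.maximalIdeal O) O]
  (hpO : (p : O) ∈ IsLocalRing.maximalIdeal O)
  (𝔞 : Ideal O) [Fintype (O ⧸ 𝔞)] (n : ℕ) (hn : IsLocalRing.maximalIdeal O ^ n ≤ 𝔞)

/-- `ℤ/p^n → O/𝔞`. -/
def thetaQ : ZMod (p ^ n) →+* O ⧸ 𝔞 :=
  (Ideal.Quotient.factor hn).comp (psi (IsLocalRing.maximalIdeal O) hpO n)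

/-- the presentation map `(J[p^n])^{O/𝔞} → (O/𝔞)^r`. -/
def pmap : ((O ⧸ 𝔞) → Tors N (p ^ n)) →+ (Fin C.r → O ⧸ 𝔞) where
  toFun := fun x i => ∑ c : O ⧸ 𝔞, c * thetaQ hpO 𝔞 n hn (C.κ n (x c) i)
  map_zero' := by
    funext i
    simp
  map_add' := by
    intro x y
    funext i
    simp only [Pi.add_apply, map_add, mul_add, Finset.sum_add_distrib]

theorem pmap_apply (x : (O ⧸ 𝔞) → Tors N (p ^ n)) (i : Fin C.r) :
    pmap C hpO 𝔞 n hn x i = ∑ c : O ⧸ 𝔞, c * thetaQ hpO 𝔞 n hn (C.κ n (x c) i) := rfl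

/-- reduction of the limit matrices. -/
theorem map_galMatO_eq (σ : GQ) :
    (galMatO (torsionSystemOf C) (IsLocalRing.maximalIdeal O) hpO σ).map (Ideal.Quotient.mk 𝔞) =
      ((torsionSystemOf C).galMat n σ).map (thetaQ hpO 𝔞 n hn) := by
  have h1 := isLim_galMatO (torsionSystemOf C) (IsLocalRing.maximalIdeal O) hpO σ n
  have h2 := congrArg (fun X : Matrix (Fin C.r) (Fin C.r) (O ⧸ IsLocalRing.maximalIdeal O ^ n) =>
    X.map (Ideal.Quotient.factor hn)) h1
  simp only [Matrix.map_map] at h2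
  have e : (Ideal.Quotient.factor hn : O ⧸ IsLocalRing.maximalIdeal O ^ n → O ⧸ 𝔞) ∘
      (Ideal.Quotient.mk (IsLocalRing.maximalIdeal O ^ n)) = Ideal.Quotient.mk 𝔞 := by
    funext x
    rfl
  rw [e] at h2
  exact h2

theorem pmap_surjective : Function.Surjective (pmap C hpO 𝔞 n hn) := by
  classical
  intro v
  refine ⟨fun c => (C.κ n).symm (fun i => if v i = c then 1 else 0), ?_⟩
  funext i
  rw [pmap_apply]
  simp only [AddEquiv.apply_symm_apply]
  have : ∀ c : O ⧸ 𝔞, c * thetaQ hpO 𝔞 n hn (if v i = c then 1 else 0) =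
      if v i = c then c else 0 := by
    intro c
    split_ifs <;> simp
  simp only [this]
  rw [Finset.sum_ite_eq Finset.univ (v i) (fun c => c)]
  simp

theorem pmap_equivariant (σ : GQ) (x : (O ⧸ 𝔞) → Tors N (p ^ n)) :
    pmap C hpO 𝔞 n hn (fun c => galTors (p ^ n) σ (x c)) =
      actQuot C hpO 𝔞 σ (pmap C hpO 𝔞 n hn x) := by
  funext i
  have h1 : ∀ c : O ⧸ 𝔞, C.κ n (galTors (p ^ n) σ (x c)) =
      ((torsionSystemOf C).galMat n σ) *ᵥ (C.κ n (x c)) := by
    intro c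
    exact ((torsionSystemOf C).galMat_mulVec_κ n σ (x c)).symm
  have lhs : pmap C hpO 𝔞 n hn (fun c => galTors (p ^ n) σ (x c)) i =
      ∑ c : O ⧸ 𝔞, c * thetaQ hpO 𝔞 n hn
        ((((torsionSystemOf C).galMat n σ) *ᵥ (C.κ n (x c))) i) := by
    rw [pmap_apply]
    refine Finset.sum_congr rfl fun c _ => ?_
    rw [h1 c]
  have rhs : actQuot C hpO 𝔞 σ (pmap C hpO 𝔞 n hn x) i =
      ∑ l, thetaQ hpO 𝔞 n hn ((torsionSystemOf C).galMat n σ i l) *
        ∑ c : O ⧸ 𝔞, c * thetaQ hpO 𝔞 n hn (C.κ n (x c) l) := by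
    unfold actQuot
    rw [map_galMatO_eq C hpO 𝔞 n hn, Matrix.mulVec, dotProduct]
    refine Finset.sum_congr rfl fun l _ => ?_
    rw [Matrix.map_apply, pmap_apply]
  refine lhs.trans (Eq.trans ?_ rhs.symm)
  simp only [Matrix.mulVec, dotProduct, map_sum, map_mul, Finset.mul_sum]
  rw [Finset.sum_comm]
  refine Finset.sum_congr rfl fun l _ => Finset.sum_congr rfl fun c _ => ?_
  ring

end Fermat.Agent.S33lib.Lat
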