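/-
S33lib / Lat (helper8): **the residual functional.**  If the residual representation of `ρ` is
ordinary at `p`, then for every place `P | p` there is a row vector `lam ∈ T²` with a unit entry
such that `lam * (matOf ρ b σ - 1) ≡ 0 mod 𝔪_T` for every `σ` in the inertia group at `P`
(a lift of a non-zero inertia-invariant functional on `ρ̄`).
-/
import Mathlib
import Fermat.Prelude.Def_GaloisRep_LocalConditions
import Fermat.Agent.S31lib.RG.Rigidity

set_option autoImplicit false
set_option linter.unusedSectionVars false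
set_option linter.style.haveILetI false

noncomputable section

namespace Fermat.Agent.S33lib.Lat

open IsLocalRing Matrix TensorProduct Fermat.Agent.S31lib.RG

/-- `ℚ̄` -/
local notation "Qb" => AlgebraicClosure ℚ
/-- `G_ℚ` -/
local notation "GQ" => (AlgebraicClosure ℚ ≃ₐ[ℚ] AlgebraicClosure ℚ)

variable {T : Type} [CommRing T] [IsLocalRing T] (ρ : GaloisRepAdic T)
  (b : Module.Basis (Fin 2) T ρ.V)

/-- the residual functional, over the residue field. -/
theorem exists_residual_functional {p : ℕ}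
    (hres : (GaloisRepAdic.ofResidualGaloisRep ρ.residual).IsOrdinaryAt p)
    (P : ValuationSubring Qb) (hP : P.LiesOverPrime p) :
    ∃ l : Fin 2 → ResidueField T, l ≠ 0 ∧ ∀ σ ∈ P.inertiaSubgroupIn ℚ, ∀ j : Fin 2,
      ∑ k, l k * (matRes ρ b σ - 1) k j = 0 := by
  classical
  obtain ⟨L, ⟨bb, hL⟩, -, hI⟩ := hres P hP
  let k := ResidueField T
  -- the functional
  let ℓ : (k ⊗[T] ρ.V) →ₗ[k] k := bb.coord 1
  have hℓL : ∀ v ∈ L, ℓ v = 0 := by
    intro v hv
    rw [hL] at hv
    obtain ⟨c, rfl⟩ := Submodule.mem_span_singleton.mp hv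
    show bb.coord 1 (c • bb 0) = 0
    rw [map_smul, Module.Basis.coord_apply, Module.Basis.repr_self, Finsupp.single_apply]
    simp
  have hℓ1 : ℓ (bb 1) = 1 := by
    show bb.coord 1 (bb 1) = 1
    rw [Module.Basis.coord_apply, Module.Basis.repr_self, Finsupp.single_apply]
    simp
  let b₁ : Module.Basis (Fin 2) k (k ⊗[T] ρ.V) := Algebra.TensorProduct.basis k b
  refine ⟨fun i => ℓ (b₁ i), ?_, ?_⟩
  · intro h0
    have h1 : ℓ = 0 := by
      apply b₁.ext
      intro i
      exact congrFun h0 i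
    rw [h1] at hℓ1
    exact zero_ne_one hℓ1
  · intro σ hσ j
    have h1 : ℓ (((ρ.ρ σ).baseChange k) (b₁ j)) = ℓ (b₁ j) := by
      have h2 : ℓ (((ρ.ρ σ).baseChange k) (b₁ j) - b₁ j) = 0 := hℓL _ (hI σ hσ (b₁ j))
      rw [map_sub, sub_eq_zero] at h2
      exact h2
    have hmat : LinearMap.toMatrix b₁ b₁ ((ρ.ρ σ).baseChange k) = matRes ρ b σ := by
      rw [LinearMap.toMatrix_baseChange]
      rfl
    have h3 : ((ρ.ρ σ).baseChange k) (b₁ j) = ∑ i, matRes ρ b σ i j • b₁ i := by
      rw [← hmat]
      have := b₁.sum_repr (((ρ.ρ σ).baseChange k) (b₁ j))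
      rw [← this]
      refine Finset.sum_congr rfl fun i _ => ?_
      rw [LinearMap.toMatrix_apply]
    rw [h3, map_sum] at h1
    simp only [map_smul, smul_eq_mul] at h1
    have h4 : ∑ i, ℓ (b₁ i) * (matRes ρ b σ - 1) i j =
        ∑ i, matRes ρ b σ i j * ℓ (b₁ i) - ℓ (b₁ j) := by
      simp only [Matrix.sub_apply, Matrix.one_apply, mul_sub, Finset.sum_sub_distrib]
      congr 1
      · exact Finset.sum_congr rfl fun i _ => mul_comm _ _
      · simp
    rw [h4, h1, sub_self]

/-- **the residual functional, lifted to `T`.** -/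
theorem exists_lifted_functional {p : ℕ}
    (hres : (GaloisRepAdic.ofResidualGaloisRep ρ.residual).IsOrdinaryAt p)
    (P : ValuationSubring Qb) (hP : P.LiesOverPrime p) :
    ∃ lam : Fin 2 → T, (∃ k, IsUnit (lam k)) ∧ ∀ σ ∈ P.inertiaSubgroupIn ℚ, ∀ j : Fin 2,
      ∑ k, lam k * (matOf ρ b σ - 1) k j ∈ maximalIdeal T := by
  classical
  obtain ⟨l, hl0, hl⟩ := exists_residual_functional ρ b hres P hP
  choose lam hlam using fun k => IsLocalRing.residue_surjective (R := T) (l k)
  refine ⟨lam, ?_, ?_⟩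
  · by_contra hno
    push Not at hno
    apply hl0
    funext k
    rw [← hlam k]
    exact (IsLocalRing.residue_eq_zero_iff _).mpr ((IsLocalRing.mem_maximalIdeal _).mpr (hno k))
  · intro σ hσ j
    rw [← IsLocalRing.residue_eq_zero_iff, map_sum]
    have := hl σ hσ j
    rw [← this]
    refine Finset.sum_congr rfl fun k _ => ?_
    rw [map_mul, hlam k, matRes_apply]
    congr 1
    simp only [Matrix.sub_apply, Matrix.map_apply, Matrix.one_apply, map_sub]
    congr 1
    split_ifs <;> simp

end Fermat.Agent.S33lib.Lat
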