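/-
S33lib / Lat (helper8): **the `O₂`-linear map `U : O₂² → O₂^r`** behind `S32lib.emb`
(`emb v = U (coordOf v)`), its injectivity, equivariance and saturation; and **case (a)**: a
non-zero row vector killing all `R σ - 1` (`σ` in the inertia group) gives `CharStmt`.
-/
import Mathlib
import Fermat.Agent.S33lib.Iface
import Fermat.Agent.S33lib.Lat.Core
import Fermat.Agent.S32lib.Lat.Embed
import Fermat.Agent.S31lib.LAT.Cramer

set_option autoImplicit false
set_option linter.unusedSectionVars false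
set_option linter.style.haveILetI false

noncomputable section

namespace Fermat.Agent.S33lib.Lat

open IsLocalRing Matrix Fermat.Agent.S31lib.RG Fermat.Agent.S32lib Fermat.Agent.S31lib.LAT

/-- `ℚ̄` -/
local notation "Qb" => AlgebraicClosure ℚ
/-- `G_ℚ` -/
local notation "GQ" => (AlgebraicClosure ℚ ≃ₐ[ℚ] AlgebraicClosure ℚ)

section umap

variable {O₂ : Type} [CommRing O₂] {r : ℕ} (w : Fin 2 → (Fin r → O₂))
  (P : Matrix (Fin 2) (Fin 2) O₂)

/-- `U x = ∑ i, (P x)_i • w i`. -/
def umap : (Fin 2 → O₂) →ₗ[O₂] (Fin r → O₂) :=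
  (Fintype.linearCombination O₂ w).comp P.mulVecLin

theorem umap_apply (x : Fin 2 → O₂) : umap w P x = ∑ i, (P *ᵥ x) i • w i := by
  show Fintype.linearCombination O₂ w (P.mulVecLin x) = _
  rw [Fintype.linearCombination_apply]
  rfl

theorem umap_injective [IsDomain O₂] (hw : LinearIndependent O₂ w) (hP : P.det ≠ 0) :
    Function.Injective (umap w P) := by
  rw [← LinearMap.ker_eq_bot, LinearMap.ker_eq_bot']
  intro x hx
  rw [umap_apply] at hx
  have h1 : P *ᵥ x = 0 := by
    funext i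
    exact (Fintype.linearIndependent_iff.mp hw) _ hx i
  exact Matrix.eq_zero_of_mulVec_eq_zero hP h1

/-- equivariance of `U`. -/
theorem umap_equivariant {G : Type*} (A : G → Matrix (Fin r) (Fin r) O₂)
    (Mw R : G → Matrix (Fin 2) (Fin 2) O₂)
    (hA : ∀ (σ : G) (j : Fin 2), A σ *ᵥ w j = ∑ i, Mw σ i j • w i)
    (hP : ∀ σ : G, Mw σ * P = P * R σ) (σ : G) (x : Fin 2 → O₂) :
    A σ *ᵥ umap w P x = umap w P (R σ *ᵥ x) := by
  rw [umap_apply, umap_apply, Matrix.mulVec_mulVec, ← hP σ, ← Matrix.mulVec_mulVec]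
  generalize P *ᵥ x = y
  have h1 : A σ *ᵥ ∑ j, y j • w j = ∑ j, y j • ∑ i, Mw σ i j • w i := by
    rw [Matrix.mulVec_sum]
    refine Finset.sum_congr rfl fun j _ => ?_
    rw [Matrix.mulVec_smul, hA]
  rw [h1]
  simp only [Matrix.mulVec, dotProduct, Finset.sum_smul, Finset.smul_sum]
  rw [Finset.sum_comm]
  refine Finset.sum_congr rfl fun j _ => Finset.sum_congr rfl fun i _ => ?_
  rw [smul_smul, mul_comm]

/-- **saturation**: for `d ≠ 0` there is `a` such that `U (d z) ∈ (p^a)^r` forces `z ∈ 𝔪²`. -/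
theorem exists_pow_sat [IsDomain O₂] [IsDiscreteValuationRing O₂]
    (hw : LinearIndependent O₂ w) (hP : P.det ≠ 0) {d π : O₂} (hd : d ≠ 0) (hπ0 : π ≠ 0)
    (hπ : π ∈ maximalIdeal O₂) :
    ∃ a : ℕ, ∀ z : Fin 2 → O₂, (∀ i, umap w P (d • z) i ∈ Ideal.span {π ^ a}) →
      ∀ k, z k ∈ maximalIdeal O₂ := by
  classical
  obtain ⟨c, hc⟩ := exists_saturation_bound (LinearMap.range (umap w P)) π
  obtain ⟨ϖ, hϖ⟩ := IsDiscreteValuationRing.exists_irreducible O₂
  have hD : π ^ c * d * ϖ ≠ 0 := mul_ne_zero (mul_ne_zero (pow_ne_zero _ hπ0) hd) hϖ.ne_zero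
  obtain ⟨a, s, hs⟩ := exists_dvd_pow hD hπ
  refine ⟨a, fun z hz k => ?_⟩
  have h1 : ∀ i, ∃ y : O₂, umap w P (d • z) i = π ^ a * y := by
    intro i
    obtain ⟨y, hy⟩ := Ideal.mem_span_singleton'.mp (hz i)
    exact ⟨y, by rw [← hy, mul_comm]⟩
  choose y hy using h1
  have h2 : umap w P (d • z) = π ^ a • y := by
    funext i
    rw [hy i, Pi.smul_apply, smul_eq_mul]
  have h3 : π ^ a • y ∈ LinearMap.range (umap w P) := ⟨d • z, h2⟩
  obtain ⟨z', hz'⟩ := hc y a h3
  have h4 : umap w P (π ^ c • d • z) = umap w P (π ^ a • z') := by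
    rw [map_smul, h2, map_smul, hz', smul_comm]
  have h5 := umap_injective w P hw hP h4
  have h6 := congrFun h5 k
  simp only [Pi.smul_apply, smul_eq_mul] at h6
  -- `π^c d z_k = π^a z'_k = π^c d ϖ s z'_k`
  rw [hs] at h6
  have h7 : z k = ϖ * (s * z' k) := by
    have hne : π ^ c * d ≠ 0 := mul_ne_zero (pow_ne_zero _ hπ0) hd
    apply mul_left_cancel₀ hne
    rw [mul_assoc, h6]
    ring
  rw [h7]
  exact Ideal.mul_mem_right _ _ hϖ.not_isUnit

end umap

section caseA

variable {T : Type} [CommRing T] [IsLocalRing T] (ρ : GaloisRepAdic T)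
  (b : Module.Basis (Fin 2) T ρ.V)
  {O₁ O₂ : Type} [CommRing O₁] [CommRing O₂] [IsDomain O₂]

/-- **case (a)**: a non-zero row vector killing all `R σ - 1` gives the character statement. -/
theorem charStmt_of_functional (P : ValuationSubring Qb) (ψ : T →+* O₁) (ι : O₁ →+* O₂)
    (hι : Function.Injective ι) (l : Fin 2 → O₂) (hl0 : l ≠ 0)
    (hl : ∀ σ ∈ P.inertiaSubgroupIn ℚ, ∀ j : Fin 2,
      ∑ k, l k * ((matOf ρ b σ).map (ι.comp ψ) - 1) k j = 0) :
    CharStmt ρ P ψ := by
  classical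
  refine ⟨O₂, inferInstance, inferInstance, ι, hι, ?_⟩
  let f : ρ.V →+ O₂ :=
    { toFun := fun v => ∑ k, l k * coordOf ρ b (ι.comp ψ) v k
      map_zero' := by
        have : coordOf ρ b (ι.comp ψ) 0 = 0 := by
          funext k
          simp [coordOf]
        simp [this]
      map_add' := by
        intro v v'
        rw [coordOf_add]
        simp only [Pi.add_apply, mul_add, Finset.sum_add_distrib] }
  have hf : ∀ v, f v = ∑ k, l k * coordOf ρ b (ι.comp ψ) v k := fun _ => rfl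
  refine ⟨f, ?_, ?_, ?_⟩
  · intro t v
    rw [hf, hf, coordOf_smul, Finset.mul_sum]
    refine Finset.sum_congr rfl fun k _ => ?_
    rw [Pi.smul_apply, smul_eq_mul]
    show l k * ((ι.comp ψ) t * _) = ι (ψ t) * _
    rw [RingHom.comp_apply]
    ring
  · have h1 : ∃ k, l k ≠ 0 := by
      by_contra hno
      push Not at hno
      exact hl0 (funext hno)
    obtain ⟨k, hk⟩ := h1
    refine ⟨b k, ?_⟩
    rw [hf]
    have h2 : coordOf ρ b (ι.comp ψ) (b k) = Pi.single k 1 := by
      funext j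
      show (ι.comp ψ) (b.repr (b k) j) = _
      rw [Module.Basis.repr_self, Finsupp.single_apply, Pi.single_apply]
      by_cases h : k = j
      · rw [if_pos h, if_pos h.symm, map_one]
      · rw [if_neg h, if_neg (Ne.symm h), map_zero]
    rw [h2]
    simp [Pi.single_apply, hk]
  · intro σ hσ v
    rw [hf, hf, coordOf_map]
    have h3 : (matOf ρ b σ).map (ι.comp ψ) *ᵥ coordOf ρ b (ι.comp ψ) v =
        coordOf ρ b (ι.comp ψ) v +
          ((matOf ρ b σ).map (ι.comp ψ) - 1) *ᵥ coordOf ρ b (ι.comp ψ) v := by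
      rw [Matrix.sub_mulVec, Matrix.one_mulVec]
      abel
    rw [h3]
    simp only [Pi.add_apply, mul_add, Finset.sum_add_distrib]
    rw [sum_mul_sub_one_mulVec]
    simp only [hl σ hσ, zero_mul, Finset.sum_const_zero, add_zero]

end caseA

end Fermat.Agent.S33lib.Lat
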