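/-
S33lib / Lat / Main (helper8): **`latStmt : LatStmt`.**  In the situation of S33, every character
`ψ : T → O₁` satisfies `CharStmt`: there is a non-zero inertia-invariant `ψ`-semilinear functional on
`ρ.V`.

With the `ψ`-lattice `Λ = U(O₂²) ⊆ O₂^r` of `S32lib/Lat` (stable under the limit matrices `galMatO σ`,
which act on it through `R σ = ψ₂(matOf ρ b σ)`): by the rank dichotomy either a non-zero row vector
kills all `R σ - 1`, `σ ∈ I_P` (case (a): the functional), or `δ² O₂² ⊆ ∑ (R σ - 1)(R τ - 1) O₂²`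
(case (b)).  In case (b), modulo `𝔞 = (p^a)` all `U(δ² x)` are images, under the presentation
`pmap : (J[p^n])^{O₂/𝔞} → (O₂/𝔞)^r`, of tuples with entries in `K_n` (by (P2)); the residual
functional of `hres` cuts out `Γ'' < Γ'` with trivial inertia action on the quotient, contradicting
`NoTrivSubquotIn`.
-/
import Fermat.Agent.S33lib.Iface
import Fermat.Agent.S33lib.Conn.Power
import Fermat.Agent.S33lib.Lat.Pmap
import Fermat.Agent.S33lib.Lat.Res
import Fermat.Agent.S33lib.Lat.Dich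
import Fermat.Agent.S33lib.Lat.Core
import Fermat.Agent.S33lib.Lat.Umap
import Fermat.Agent.S32lib.Lat.Setup
import Fermat.Agent.S32lib.Lat.Intertwine
import Fermat.Agent.S32lib.Bridge

set_option autoImplicit false
set_option linter.unusedSectionVars false
set_option linter.style.haveILetI false

noncomputable section

namespace Fermat.Agent.S33lib.Lat

open IsLocalRing Matrix Fermat.Agent.S31lib.RG Fermat.Agent.S31lib.TC Fermat.Agent.S29lib
  Fermat.Agent.S29lib.E Fermat.Agent.S29lib.S30 Fermat.Agent.S32lib Fermat.Agent.S19lib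
  Fermat.Agent.S33lib.Conn CuspForm

/-- `ℚ̄` -/
local notation "Qb" => AlgebraicClosure ℚ
/-- `G_ℚ` -/
local notation "GQ" => (AlgebraicClosure ℚ ≃ₐ[ℚ] AlgebraicClosure ℚ)

section transfer

variable {N p : ℕ} [NeZero N] (C : ComparisonData N p)
  {O : Type} [CommRing O] [IsLocalRing O] [IsAdicComplete (IsLocalRing.maximalIdeal O) O]
  (hpO : (p : O) ∈ IsLocalRing.maximalIdeal O)
  (𝔞 : Ideal O) [Fintype (O ⧸ 𝔞)] (n : ℕ) (hn : IsLocalRing.maximalIdeal O ^ n ≤ 𝔞)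
  (A : ValuationSubring Qb) (K : AddSubgroup (ModularCurve.JZero N))

/-- the tuples with entries in `K`. -/
def tupK : AddSubgroup ((O ⧸ 𝔞) → Tors N (p ^ n)) where
  carrier := {m | ∀ c, ((m c : Tors N (p ^ n)) : ModularCurve.JZero N) ∈ K}
  zero_mem' := fun c => K.zero_mem
  add_mem' := fun {a b} ha hb c => K.add_mem (ha c) (hb c)
  neg_mem' := fun {a} ha c => K.neg_mem (ha c)

/-- the images of the tuples with entries in `K`. -/
def imgK : AddSubgroup (Fin C.r → O ⧸ 𝔞) := (tupK 𝔞 n K).map (pmap C hpO 𝔞 n hn)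

omit [NeZero N] in
theorem coe_sub_sub (n : ℕ) [NeZero N] (σ τ : GQ) (x : Tors N n) :
    ((galTors n σ (galTors n τ x - x) - (galTors n τ x - x) : Tors N n) :
        ModularCurve.JZero N) =
      σ • (τ • (x : ModularCurve.JZero N) - x) - (τ • (x : ModularCurve.JZero N) - x) := by
  rw [Submodule.coe_sub, coe_galTors, Submodule.coe_sub, coe_galTors]

omit [NeZero N] in
theorem coe_mem_tors [NeZero N] (p n : ℕ) (x : Tors N (p ^ n)) :
    (x : ModularCurve.JZero N) ∈ tors N ((p : ℤ) ^ n) := by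
  show _ ∈ Submodule.torsionBy ℤ (ModularCurve.JZero N) ((p : ℤ) ^ n)
  rw [torsionBy_pow_eq]
  exact x.2

set_option maxHeartbeats 1000000 in
/-- **(P2) transferred**: `(σ - 1)(τ - 1) y ∈ imgK` for every `y ∈ (O/𝔞)^r`. -/
theorem sub_sub_mem_imgK
    (hP2 : ∀ σ ∈ IA A, ∀ τ ∈ IA A, ∀ x ∈ tors N ((p : ℤ) ^ n),
      σ • (τ • x - x) - (τ • x - x) ∈ K)
    {σ τ : GQ} (hσ : σ ∈ IA A) (hτ : τ ∈ IA A) (y : Fin C.r → O ⧸ 𝔞) :
    actQuot C hpO 𝔞 σ (actQuot C hpO 𝔞 τ y - y) - (actQuot C hpO 𝔞 τ y - y) ∈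
      imgK C hpO 𝔞 n hn K := by
  obtain ⟨m₀, rfl⟩ := pmap_surjective C hpO 𝔞 n hn y
  obtain ⟨mτ, hmτ⟩ : ∃ m : (O ⧸ 𝔞) → Tors N (p ^ n),
      m = (fun c => galTors (p ^ n) τ (m₀ c)) - m₀ := ⟨_, rfl⟩
  obtain ⟨mστ, hmστ⟩ : ∃ m : (O ⧸ 𝔞) → Tors N (p ^ n),
      m = (fun c => galTors (p ^ n) σ (mτ c)) - mτ := ⟨_, rfl⟩
  have h1 : pmap C hpO 𝔞 n hn mτ =
      actQuot C hpO 𝔞 τ (pmap C hpO 𝔞 n hn m₀) - pmap C hpO 𝔞 n hn m₀ := by
    rw [← pmap_equivariant, ← map_sub, ← hmτ]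
  have h2 : pmap C hpO 𝔞 n hn mστ =
      actQuot C hpO 𝔞 σ (pmap C hpO 𝔞 n hn mτ) - pmap C hpO 𝔞 n hn mτ := by
    rw [← pmap_equivariant, ← map_sub, ← hmστ]
  refine ⟨mστ, ?_, ?_⟩
  · intro c
    have e3 : mστ c = galTors (p ^ n) σ (galTors (p ^ n) τ (m₀ c) - m₀ c) -
        (galTors (p ^ n) τ (m₀ c) - m₀ c) := by
      rw [hmστ, hmτ]
      rfl
    rw [e3, coe_sub_sub]
    exact hP2 σ hσ τ hτ _ (coe_mem_tors p n (m₀ c))
  · rw [h2, h1]

/-- evaluation of a tuple at `c`, as a point of `J₀(N)`. -/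
def evalJ (c : O ⧸ 𝔞) : ((O ⧸ 𝔞) → Tors N (p ^ n)) →+ ModularCurve.JZero N :=
  ((Tors N (p ^ n)).subtype.toAddMonoidHom).comp
    (Pi.evalAddMonoidHom (fun _ : O ⧸ 𝔞 => Tors N (p ^ n)) c)

theorem evalJ_apply (c : O ⧸ 𝔞) (m : (O ⧸ 𝔞) → Tors N (p ^ n)) :
    evalJ 𝔞 n c m = ((m c : Tors N (p ^ n)) : ModularCurve.JZero N) := rfl

/-- **no trivial subquotient inside `imgK`.** -/
theorem noTrivSubquot_imgK (hKno : NoTrivSubquotIn A K)
    (hKst : ∀ σ ∈ IA A, ∀ x ∈ K, σ • x ∈ K)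
    (Γ'' Γ' : AddSubgroup (Fin C.r → O ⧸ 𝔞)) (hle : Γ'' ≤ Γ')
    (hΓ' : Γ' ≤ imgK C hpO 𝔞 n hn K)
    (hst'' : ∀ σ ∈ IA A, ∀ m ∈ Γ'', actQuot C hpO 𝔞 σ m ∈ Γ'')
    (hst' : ∀ σ ∈ IA A, ∀ m ∈ Γ', actQuot C hpO 𝔞 σ m ∈ Γ')
    (htriv : ∀ σ ∈ IA A, ∀ m ∈ Γ', actQuot C hpO 𝔞 σ m - m ∈ Γ'') : Γ' ≤ Γ'' := by
  classical
  have hf : ∀ (c : O ⧸ 𝔞) (σ : GQ) (m : (O ⧸ 𝔞) → Tors N (p ^ n)),
      evalJ 𝔞 n c (fun c' => galTors (p ^ n) σ (m c')) = σ • evalJ 𝔞 n c m := by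
    intro c σ m
    rw [evalJ_apply, evalJ_apply, coe_galTors]
  have hinj : ∀ m : (O ⧸ 𝔞) → Tors N (p ^ n),
      (∀ c ∈ (Finset.univ : Finset (O ⧸ 𝔞)), evalJ 𝔞 n c m ∈ K) →
      (∀ c ∈ (Finset.univ : Finset (O ⧸ 𝔞)), evalJ 𝔞 n c m = 0) → m = 0 := by
    intro m _ h0
    funext c
    apply Subtype.ext
    have := h0 c (Finset.mem_univ c)
    rw [evalJ_apply] at this
    rw [this]
    rfl
  have hG : ∀ m' ∈ Γ', ∃ m : (O ⧸ 𝔞) → Tors N (p ^ n),
      (∀ c ∈ (Finset.univ : Finset (O ⧸ 𝔞)), evalJ 𝔞 n c m ∈ K) ∧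
        pmap C hpO 𝔞 n hn m = m' := by
    intro m' hm'
    obtain ⟨m, hm, rfl⟩ := hΓ' hm'
    refine ⟨m, fun c _ => ?_, rfl⟩
    rw [evalJ_apply]
    exact hm c
  have k1 := noTrivSubquot_of_quotient_family (A := A) (K := K) hKno hKst
    (fun (σ : GQ) (m : (O ⧸ 𝔞) → Tors N (p ^ n)) c => galTors (p ^ n) σ (m c))
    (actQuot C hpO 𝔞)
    (pmap C hpO 𝔞 n hn)
  have k3 := k1 (pmap_equivariant C hpO 𝔞 n hn) (evalJ 𝔞 n)
  have k4 := k3 hf
  have k5 := k4 Finset.univ hinj Γ'' Γ' hle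
  have k6 := k5 hG
  exact k6 hst'' hst' htriv

end transfer

variable {p : ℕ} {N : ℕ} [NeZero N] {S : Finset ℕ}
  {𝒪 : Type} [CommRing 𝒪] [IsDomain 𝒪] [IsDiscreteValuationRing 𝒪]
  [IsAdicComplete (IsLocalRing.maximalIdeal 𝒪) 𝒪]
  {θ : CuspForm.heckeAlgebra N 2 (↑S : Set ℕ) →+* IsLocalRing.ResidueField 𝒪}
  {T : Type} [CommRing T] [IsLocalRing T] [IsNoetherianRing T]
  [IsAdicComplete (IsLocalRing.maximalIdeal T) T] [Algebra 𝒪 T] [IsLocalHom (algebraMap 𝒪 T)]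
  [Module.Finite 𝒪 T] [Module.Free 𝒪 T]

/-- **the character statement from the algebraic filtration.** -/
theorem charStmt_of_pFiltAlg
    (hp : p.Prime) (hp𝒪 : (p : 𝒪) ∈ IsLocalRing.maximalIdeal 𝒪)
    (hN : p ∣ N) (hNS : ∀ q : ℕ, q.Prime → q ∣ N → q ∈ S)
    (H : CuspForm.HeckeGaloisRepDatum N (↑S : Set ℕ) 𝒪 θ T)
    (hres : (GaloisRepAdic.ofResidualGaloisRep H.ρ.residual).IsOrdinaryAt p)
    (hPF : PFiltAlgStmt N p)
    (P : ValuationSubring Qb) (hP : P.LiesOverPrime p)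
    {O₁ : Type} [CommRing O₁] [IsDomain O₁] [IsDiscreteValuationRing O₁]
    [IsAdicComplete (maximalIdeal O₁) O₁] [Finite (ResidueField O₁)] [CharZero O₁]
    [Algebra 𝒪 O₁] [IsLocalHom (algebraMap 𝒪 O₁)] (ψ : T →ₐ[𝒪] O₁) :
    CharStmt H.ρ P (ψ : T →+* O₁) := by
  classical
  have hpS : p ∈ S := hNS p hp hN
  let b : Module.Basis (Fin 2) T H.ρ.V := Module.finBasisOfFinrankEq T H.ρ.V H.ρ.finrank_eq
  obtain ⟨O₂, i1, i2, i3, i4, i5, i6, i7, i8, i9, hinj, Cd, hpO₂, w, Mw, hli, hact, hquad⟩ :=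
    exists_piece_setup hp hp𝒪 hpS hNS H b ψ
  obtain ⟨Pm, hPdet, hPm⟩ := exists_intertwiner H.ρ b H.residual_absIrr
    ((algebraMap O₁ O₂).comp (ψ : T →+* O₁)) Mw hquad
  -- notation
  let ψ₂ : T →+* O₂ := (algebraMap O₁ O₂).comp (ψ : T →+* O₁)
  let R : GQ → Matrix (Fin 2) (Fin 2) O₂ := fun σ => (matOf H.ρ b σ).map ψ₂
  let Gact : GQ → Matrix (Fin Cd.r) (Fin Cd.r) O₂ :=
    fun σ => galMatO (torsionSystemOf Cd) (maximalIdeal O₂) hpO₂ σ
  let I : Set GQ := {σ | σ ∈ P.inertiaSubgroupIn ℚ}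
  -- the dichotomy
  rcases functional_or_square R I with ⟨l, hl0, hl⟩ | ⟨δ, hδ0, hδ⟩
  · exact charStmt_of_functional H.ρ b P (ψ : T →+* O₁) (algebraMap O₁ O₂) hinj l hl0
      (fun σ hσ j => hl σ hσ j)
  · exfalso
    -- the residual functional
    obtain ⟨lam, hlamu, hlam⟩ := exists_lifted_functional H.ρ b hres P hP
    have hψ₂loc : ∀ t ∈ maximalIdeal T, ψ₂ t ∈ maximalIdeal O₂ := by
      intro t ht
      have h1 : ψ t ∈ maximalIdeal O₁ := algHom_mem_maximalIdeal ψ ht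
      exact map_nonunit (algebraMap O₁ O₂) _ h1
    let μ : Fin 2 → O₂ := fun k => ψ₂ (lam k)
    have hμu : ∃ k, IsUnit (μ k) := by
      obtain ⟨k, hk⟩ := hlamu
      exact ⟨k, hk.map ψ₂⟩
    have hμ : ∀ σ ∈ I, ∀ j : Fin 2, ∑ k, μ k * (R σ - 1) k j ∈ maximalIdeal O₂ := by
      intro σ hσ j
      have h1 := hψ₂loc _ (hlam σ hσ j)
      rw [map_sum] at h1
      have h2 : ∑ k, μ k * (R σ - 1) k j = ∑ k, ψ₂ (lam k * (matOf H.ρ b σ - 1) k j) := by
        refine Finset.sum_congr rfl fun k _ => ?_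
        rw [map_mul]
        congr 1
        simp only [R, Matrix.sub_apply, Matrix.map_apply, Matrix.one_apply, map_sub]
        congr 1
        split_ifs <;> simp
      rw [h2]
      exact h1
    -- the linear map `U`
    have hU : ∀ (σ : GQ) (x : Fin 2 → O₂), Gact σ *ᵥ umap w Pm x = umap w Pm (R σ *ᵥ x) :=
      umap_equivariant w Pm Gact (fun σ => Mw σ) R hact (fun σ => hPm σ)
    -- the level
    have hp0 : (p : O₂) ≠ 0 := Nat.cast_ne_zero.mpr hp.ne_zero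
    have hd0 : δ * δ ≠ 0 := mul_ne_zero hδ0 hδ0
    obtain ⟨a, hsat⟩ := exists_pow_sat w Pm hli hPdet hd0 hp0 hpO₂
    have hpa0 : (p : O₂) ^ a ≠ 0 := pow_ne_zero _ hp0
    obtain ⟨n, hn⟩ := exists_pow_le_span hpa0
    haveI : Finite (O₂ ⧸ maximalIdeal O₂) := inferInstanceAs (Finite (ResidueField O₂))
    haveI : Finite (O₂ ⧸ maximalIdeal O₂ ^ n) :=
      Ideal.finite_quotient_pow (IsNoetherian.noetherian _) n
    haveI : Finite (O₂ ⧸ Ideal.span {(p : O₂) ^ a}) :=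
      Finite.of_surjective (Ideal.Quotient.factor hn) (Ideal.Quotient.factor_surjective hn)
    haveI : Fintype (O₂ ⧸ Ideal.span {(p : O₂) ^ a}) := Fintype.ofFinite _
    -- the filtration at level `n`
    obtain ⟨K, hKle, hKst, hP2, hKno⟩ := hPF P hP n
    refine false_of_square I (umap w Pm) Gact R hU μ hμu hμ (δ * δ)
      (Ideal.span {(p : O₂) ^ a}) hsat
      (imgK Cd hpO₂ (Ideal.span {(p : O₂) ^ a}) n hn K) ?_ ?_
    · -- all `U (δ² x)` are in `imgK`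
      have key : ∀ y ∈ span2 R I, ∀ c : O₂,
          (fun i => Ideal.Quotient.mk (Ideal.span {(p : O₂) ^ a}) (umap w Pm (c • y) i)) ∈
            imgK Cd hpO₂ (Ideal.span {(p : O₂) ^ a}) n hn K := by
        intro y hy
        unfold span2 at hy
        induction hy using Submodule.span_induction with
        | mem y hy =>
          obtain ⟨σ, hσ, τ, hτ, z, rfl⟩ := hy
          intro c
          -- `φ₁ ((R σ - 1) y') = act σ (φ₁ y') - φ₁ y'`
          have hφ : ∀ (σ' : GQ) (y' : Fin 2 → O₂),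
              (fun i => Ideal.Quotient.mk (Ideal.span {(p : O₂) ^ a})
                (umap w Pm ((R σ' - 1) *ᵥ y') i)) =
              actQuot Cd hpO₂ (Ideal.span {(p : O₂) ^ a}) σ'
                (fun i => Ideal.Quotient.mk (Ideal.span {(p : O₂) ^ a}) (umap w Pm y' i)) -
              (fun i => Ideal.Quotient.mk (Ideal.span {(p : O₂) ^ a}) (umap w Pm y' i)) := by
            intro σ' y'
            funext i
            have h1 := RingHom.map_mulVec (Ideal.Quotient.mk (Ideal.span {(p : O₂) ^ a}))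
              (Gact σ') (umap w Pm y') i
            rw [hU] at h1
            rw [Matrix.sub_mulVec, Matrix.one_mulVec, map_sub, Pi.sub_apply, map_sub, h1]
            rfl
          have e : c • ((R σ - 1) *ᵥ ((R τ - 1) *ᵥ z)) = (R σ - 1) *ᵥ ((R τ - 1) *ᵥ (c • z)) := by
            rw [Matrix.mulVec_smul, Matrix.mulVec_smul]
          rw [e, hφ σ, hφ τ]
          exact sub_sub_mem_imgK Cd hpO₂ _ n hn P K hP2 hσ hτ _
        | zero =>
          intro c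
          simp only [smul_zero, map_zero, Pi.zero_apply]
          exact AddSubgroup.zero_mem _
        | add y y' _ _ h h' =>
          intro c
          have := AddSubgroup.add_mem _ (h c) (h' c)
          convert this using 1
          funext i
          simp only [smul_add, map_add, Pi.add_apply]
        | smul c' y _ h =>
          intro c
          rw [smul_smul]
          exact h (c * c')
      intro x
      have := key _ (hδ x) 1
      rw [one_smul] at this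
      exact this
    · -- no trivial subquotient inside `imgK`
      intro Γ'' Γ' hle hΓ' hst'' hst' htriv
      exact noTrivSubquot_imgK Cd hpO₂ (Ideal.span {(p : O₂) ^ a}) n hn P K hKno hKst
        Γ'' Γ' hle hΓ' hst'' hst' htriv

/-- **`LatStmt`.** -/
theorem latStmt : LatStmt := by
  intro p N _ S 𝒪 _ _ _ _ θ T _ _ _ _ _ _ _ _ _ _ hp _ hp𝒪 hN hNS H hres hPF P hP
    O₁ _ _ _ _ _ _ _ _ _ ψ _
  exact charStmt_of_pFiltAlg hp hp𝒪 hN.1 hNS H hres hPF P hP ψ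

end Fermat.Agent.S33lib.Lat
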