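/-
S33lib / Lat (helper8): **the rank dichotomy for the inertia action**, over a domain `O`.
`R σ ∈ M₂(O)` for `σ` in a set `I`.  Either a non-zero row vector `l` kills all `R σ - 1`, or there is
`δ ≠ 0` with `δ² • O² ⊆ span {(R σ - 1)(R τ - 1) z}`.
-/
import Mathlib
import Fermat.Agent.S33lib.Conn.Lin2

set_option autoImplicit false
set_option linter.unusedSectionVars false

noncomputable section

namespace Fermat.Agent.S33lib.Lat

open Matrix Fermat.Agent.S33lib.Conn

variable {O : Type*} [CommRing O] {G : Type*} (R : G → Matrix (Fin 2) (Fin 2) O) (I : Set G)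

/-- the span of the `(R σ - 1) z`. -/
def span1 : Submodule O (Fin 2 → O) :=
  Submodule.span O {y | ∃ σ ∈ I, ∃ z : Fin 2 → O, y = (R σ - 1) *ᵥ z}

/-- the span of the `(R σ - 1)(R τ - 1) z`. -/
def span2 : Submodule O (Fin 2 → O) :=
  Submodule.span O {y | ∃ σ ∈ I, ∃ τ ∈ I, ∃ z : Fin 2 → O, y = (R σ - 1) *ᵥ ((R τ - 1) *ᵥ z)}

theorem mulVec_mem_span2 {σ : G} (hσ : σ ∈ I) {y : Fin 2 → O} (hy : y ∈ span1 R I) :
    (R σ - 1) *ᵥ y ∈ span2 R I := by
  unfold span1 at hy
  induction hy using Submodule.span_induction with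
  | mem y hy =>
    obtain ⟨τ, hτ, z, rfl⟩ := hy
    exact Submodule.subset_span ⟨σ, hσ, τ, hτ, z, rfl⟩
  | zero =>
    rw [Matrix.mulVec_zero]
    exact Submodule.zero_mem _
  | add y y' _ _ h h' =>
    rw [Matrix.mulVec_add]
    exact Submodule.add_mem _ h h'
  | smul a y _ h =>
    rw [Matrix.mulVec_smul]
    exact Submodule.smul_mem _ _ h

theorem smul_mem_span2 {δ : O} (hδ : ∀ x : Fin 2 → O, δ • x ∈ span1 R I) {y : Fin 2 → O}
    (hy : y ∈ span1 R I) : δ • y ∈ span2 R I := by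
  unfold span1 at hy
  induction hy using Submodule.span_induction with
  | mem y hy =>
    obtain ⟨σ, hσ, z, rfl⟩ := hy
    rw [← Matrix.mulVec_smul]
    exact mulVec_mem_span2 R I hσ (hδ z)
  | zero =>
    rw [smul_zero]
    exact Submodule.zero_mem _
  | add y y' _ _ h h' =>
    rw [smul_add]
    exact Submodule.add_mem _ h h'
  | smul a y _ h =>
    rw [smul_comm]
    exact Submodule.smul_mem _ _ h

variable [IsDomain O]

/-- **the rank dichotomy for the inertia action.** -/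
theorem functional_or_square :
    (∃ l : Fin 2 → O, l ≠ 0 ∧ ∀ σ ∈ I, ∀ j : Fin 2, ∑ k, l k * (R σ - 1) k j = 0) ∨
      ∃ δ : O, δ ≠ 0 ∧ ∀ x : Fin 2 → O, (δ * δ) • x ∈ span2 R I := by
  classical
  let v : (↥I × Fin 2) → Fin 2 → O := fun sc k => (R sc.1.1 - 1) k sc.2
  have hv : ∀ sc, v sc ∈ span1 R I := by
    intro sc
    refine Submodule.subset_span ⟨sc.1.1, sc.1.2, Pi.single sc.2 1, ?_⟩
    funext k
    rw [Matrix.mulVec_single_one]
    rfl
  rcases exists_functional_or_minor v with ⟨l, hl0, hl⟩ | ⟨i, j, hδ⟩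
  · left
    refine ⟨l, hl0, fun σ hσ j => ?_⟩
    rw [Fin.sum_univ_two]
    exact hl (⟨σ, hσ⟩, j)
  · right
    refine ⟨_, hδ, fun x => ?_⟩
    have h1 : ∀ x : Fin 2 → O, (v i 0 * v j 1 - v i 1 * v j 0) • x ∈ span1 R I := by
      intro x
      have h2 := minor_smul_mem_span_range v i j x
      refine Submodule.span_le.mpr ?_ h2
      rintro _ ⟨sc, rfl⟩
      exact hv sc
    rw [mul_smul]
    exact smul_mem_span2 R I h1 (h1 x)

end Fermat.Agent.S33lib.Lat
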